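import Mathlib
import Fermat.Prelude.Def_FLTPrelim_Ramification
import Fermat.Prelude.Def_EllipticCurve_FrobeniusTrace
import Fermat.Agent.S05.Inertia
import Fermat.Agent.Lib.InertiaLift

set_option autoImplicit false

namespace Fermat.Agent.Lib.Tame

open Polynomial

local notation "Qb" => AlgebraicClosure ℚ
local notation "GQ" => (AlgebraicClosure ℚ ≃ₐ[ℚ] AlgebraicClosure ℚ)

/-! ### Valuation generalities -/

section Val

variable {K : Type*} [Field K] {Γ₀ : Type*} [LinearOrderedCommGroupWithZero Γ₀]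
  (v : Valuation K Γ₀)

/-- Principal units: `a ≡ 1` modulo the maximal ideal. -/
def Near1 (a : K) : Prop := v (a - 1) < 1

theorem near1_one : Near1 v 1 := by
  simp [Near1]

variable {v}

theorem Near1.val_eq_one {a : K} (h : Near1 v a) : v a = 1 := by
  have h2 : a = 1 + (a - 1) := by ring
  rw [h2, Valuation.map_add_eq_of_lt_left v (by rw [map_one]; exact h), map_one]

theorem Near1.ne_zero {a : K} (h : Near1 v a) : a ≠ 0 := by
  intro h0
  have := h.val_eq_one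
  rw [h0, map_zero] at this
  exact zero_ne_one this

theorem Near1.mul {a b : K} (ha : Near1 v a) (hb : Near1 v b) : Near1 v (a * b) := by
  have h2 : a * b - 1 = (a - 1) * b + (b - 1) := by ring
  show v (a * b - 1) < 1
  rw [h2]
  refine Valuation.map_add_lt v ?_ hb
  rw [map_mul, hb.val_eq_one, mul_one]
  exact ha

theorem Near1.inv {a : K} (ha : Near1 v a) : Near1 v a⁻¹ := by
  have ha0 := ha.ne_zero
  have h2 : a⁻¹ - 1 = -((a - 1) * a⁻¹) := by field_simp; ring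
  show v (a⁻¹ - 1) < 1
  rw [h2, Valuation.map_neg, map_mul, map_inv₀, ha.val_eq_one, inv_one, mul_one]
  exact ha

theorem Near1.pow {a : K} (ha : Near1 v a) (n : ℕ) : Near1 v (a ^ n) := by
  induction n with
  | zero => simpa using near1_one v
  | succ n ih => rw [pow_succ]; exact ih.mul ha

theorem Near1.zpow {a : K} (ha : Near1 v a) (n : ℤ) : Near1 v (a ^ n) := by
  cases n with
  | ofNat n => simpa using ha.pow n
  | negSucc n => rw [zpow_negSucc]; exact (ha.pow (n + 1)).inv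

theorem near1_div_iff {w z : K} (hz : z ≠ 0) : Near1 v (w / z) ↔ v (w - z) < v z := by
  have h2 : w / z - 1 = (w - z) / z := by field_simp
  have hvz : 0 < v z := zero_lt_iff.mpr ((Valuation.ne_zero_iff v).mpr hz)
  show v (w / z - 1) < 1 ↔ _
  rw [h2, map_div₀, div_lt_one₀ hvz]

/-- In a vanishing finite sum with a nonzero term, the maximal valuation is attained twice. -/
theorem exists_ne_val_eq_of_sum_eq_zero {ι : Type*} [DecidableEq ι] (s : Finset ι) (f : ι → K)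
    (hsum : ∑ i ∈ s, f i = 0) (i₀ : ι) (hi₀ : i₀ ∈ s) (hf : f i₀ ≠ 0) :
    ∃ i ∈ s, ∃ j ∈ s, i ≠ j ∧ f i ≠ 0 ∧ v (f i) = v (f j) := by
  obtain ⟨m, hm, hmax⟩ := Finset.exists_max_image s (fun i => v (f i)) ⟨i₀, hi₀⟩
  have hvm : v (f m) ≠ 0 := by
    have h1 : v (f i₀) ≤ v (f m) := hmax i₀ hi₀
    have h2 : 0 < v (f i₀) := zero_lt_iff.mpr ((Valuation.ne_zero_iff v).mpr hf)
    exact (lt_of_lt_of_le h2 h1).ne'
  have hfm : f m ≠ 0 := (Valuation.ne_zero_iff v).mp hvm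
  by_contra hcon
  push Not at hcon
  have hlt : ∀ j ∈ s.erase m, v (f j) < v (f m) := by
    intro j hj
    have hj' := Finset.mem_erase.mp hj
    refine lt_of_le_of_ne (hmax j hj'.2) ?_
    intro h
    exact hcon m hm j hj'.2 (Ne.symm hj'.1) hfm h.symm
  have h1 : v (∑ j ∈ s.erase m, f j) < v (f m) := Valuation.map_sum_lt v hvm hlt
  have h2 : f m + ∑ j ∈ s.erase m, f j = 0 := by
    rw [Finset.add_sum_erase s f hm]; exact hsum
  have h3 : f m = -∑ j ∈ s.erase m, f j := eq_neg_of_add_eq_zero_left h2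
  have h4 : v (f m) = v (∑ j ∈ s.erase m, f j) := by
    conv_lhs => rw [h3]
    rw [Valuation.map_neg]
  rw [h4] at h1
  exact lt_irrefl _ h1

end Val

/-! ### Rank one: valuations of algebraic elements are commensurable with the valuation of `q` -/

section Rank

theorem aux_pow_eq {Γ₀ : Type*} [LinearOrderedCommGroupWithZero Γ₀] {x y : Γ₀} (hx : x ≠ 0)
    (hy : y ≠ 0) {i j : ℕ} (hij : i < j) {a b : ℤ} (h : y ^ a * x ^ i = y ^ b * x ^ j) :
    x ^ (j - i) = y ^ (a - b) := by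
  have hj : x ^ j = x ^ (j - i) * x ^ i := by rw [← pow_add, Nat.sub_add_cancel hij.le]
  rw [hj, ← mul_assoc] at h
  have h2 : y ^ a = y ^ b * x ^ (j - i) := mul_right_cancel₀ (pow_ne_zero i hx) h
  rw [zpow_sub₀ hy, eq_div_iff (zpow_ne_zero b hy), h2, mul_comm]

theorem pow_inj_of_ne_zero {Γ₀ : Type*} [LinearOrderedCommGroupWithZero Γ₀] {a b : Γ₀} {n : ℕ}
    (hn : n ≠ 0) (h : a ^ n = b ^ n) : a = b :=
  (pow_left_inj₀ zero_le zero_le hn).mp h

variable {K : Type*} [Field K] [CharZero K] {Γ₀ : Type*} [LinearOrderedCommGroupWithZero Γ₀]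
  (v : Valuation K Γ₀) {q : ℕ} (hq : q.Prime) (hvq : v (q : K) < 1)

include hq hvq

omit [CharZero K] in
theorem exists_val_intCast_eq (n : ℤ) (hn : n ≠ 0) : ∃ k : ℕ, v (n : K) = v (q : K) ^ k := by
  have hfin : FiniteMultiplicity (q : ℤ) n :=
    Int.finiteMultiplicity_iff.mpr ⟨by simpa using hq.ne_one, hn⟩
  obtain ⟨c, hc, hdvd⟩ := hfin.exists_eq_pow_mul_and_not_dvd
  refine ⟨multiplicity (q : ℤ) n, ?_⟩
  have h1 : (n : K) = (q : K) ^ multiplicity (q : ℤ) n * (c : K) := by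
    conv_lhs => rw [hc]
    push_cast
    rfl
  rw [h1, map_mul, map_pow, Fermat.Agent.Lib.FrobeniusExists.val_intCast_eq_one v hq hvq hdvd,
    mul_one]

theorem exists_val_ratCast_eq (c : ℚ) (hc : c ≠ 0) : ∃ k : ℤ, v (c : K) = v (q : K) ^ k := by
  obtain ⟨k1, h1⟩ := exists_val_intCast_eq v hq hvq c.num (Rat.num_ne_zero.mpr hc)
  obtain ⟨k2, h2⟩ := exists_val_intCast_eq v hq hvq (c.den : ℤ) (by exact_mod_cast c.den_nz)
  refine ⟨(k1 : ℤ) - k2, ?_⟩
  have hvq0 : v (q : K) ≠ 0 := (Valuation.ne_zero_iff v).mpr (by exact_mod_cast hq.ne_zero)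
  have h2' : v ((c.den : ℕ) : K) = v (q : K) ^ k2 := by
    rw [← h2]; norm_cast
  rw [Rat.cast_def, map_div₀, h1, h2', zpow_sub₀ hvq0, zpow_natCast, zpow_natCast]

theorem exists_pow_val_eq [Algebra ℚ K] (z : K) (hz : z ≠ 0) (hint : IsIntegral ℚ z) :
    ∃ n : ℕ, 0 < n ∧ n ≤ (minpoly ℚ z).natDegree ∧ ∃ m : ℤ, v z ^ n = v (q : K) ^ m := by
  classical
  set p := minpoly ℚ z with hpdef
  have hp : aeval z p = 0 := minpoly.aeval ℚ z
  rw [aeval_eq_sum_range] at hp
  have hmonic : p.Monic := minpoly.monic hint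
  let f : ℕ → K := fun i => p.coeff i • z ^ i
  have hf0 : f p.natDegree ≠ 0 := by
    simp only [f, hmonic.coeff_natDegree, one_smul]
    exact pow_ne_zero _ hz
  obtain ⟨i, hi, j, hj, hij, hfi, hv⟩ := exists_ne_val_eq_of_sum_eq_zero (v := v)
    (Finset.range (p.natDegree + 1)) f hp p.natDegree (Finset.self_mem_range_succ _) hf0
  have hfj : f j ≠ 0 := by
    rw [← Valuation.ne_zero_iff v, ← hv]
    exact (Valuation.ne_zero_iff v).mpr hfi
  have hci : p.coeff i ≠ 0 := fun h => hfi (by simp [f, h])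
  have hcj : p.coeff j ≠ 0 := fun h => hfj (by simp [f, h])
  obtain ⟨ki, hki⟩ := exists_val_ratCast_eq v hq hvq (p.coeff i) hci
  obtain ⟨kj, hkj⟩ := exists_val_ratCast_eq v hq hvq (p.coeff j) hcj
  have hvf : ∀ i, v (f i) = v ((p.coeff i : ℚ) : K) * v z ^ i := by
    intro i
    simp only [f, Algebra.smul_def, map_mul, map_pow, eq_ratCast]
  rw [hvf, hvf, hki, hkj] at hv
  have hvz : v z ≠ 0 := (Valuation.ne_zero_iff v).mpr hz
  have hvq0 : v (q : K) ≠ 0 := (Valuation.ne_zero_iff v).mpr (by exact_mod_cast hq.ne_zero)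
  have hi' : i ≤ p.natDegree := Nat.lt_succ_iff.mp (Finset.mem_range.mp hi)
  have hj' : j ≤ p.natDegree := Nat.lt_succ_iff.mp (Finset.mem_range.mp hj)
  rcases lt_or_gt_of_ne hij with h | h
  · exact ⟨j - i, Nat.sub_pos_of_lt h, (Nat.sub_le j i).trans hj', ki - kj,
      aux_pow_eq hvz hvq0 h hv⟩
  · exact ⟨i - j, Nat.sub_pos_of_lt h, (Nat.sub_le i j).trans hi', kj - ki,
      aux_pow_eq hvz hvq0 h hv.symm⟩

theorem exists_val_pow_factorial_eq [Algebra ℚ K] (d : ℕ) (z : K) (hz : z ≠ 0)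
    (hint : IsIntegral ℚ z) (hdeg : (minpoly ℚ z).natDegree ≤ d) :
    ∃ k : ℤ, v z ^ d.factorial = v (q : K) ^ k := by
  obtain ⟨n, hn0, hnle, m, hm⟩ := exists_pow_val_eq v hq hvq z hz hint
  obtain ⟨c, hc⟩ := Nat.dvd_factorial hn0 (hnle.trans hdeg)
  refine ⟨m * c, ?_⟩
  rw [hc, pow_mul, hm, zpow_mul, zpow_natCast]

end Rank

/-! ### Inertia groups in `Gal(ℚ̄/ℚ)` -/

section Galois

open IsLocalRing

theorem natCast_ne_zero_of_coprime {k : Type*} [Field k] {p q : ℕ} (hpq : Nat.Coprime p q)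
    (hk : (p : k) = 0) : (q : k) ≠ 0 := by
  intro hq0
  obtain ⟨a, b, hab⟩ := Nat.isCoprime_iff_coprime.mpr hpq
  have h := congrArg (Int.cast : ℤ → k) hab
  push_cast at h
  rw [hk, hq0, mul_zero, mul_zero, add_zero] at h
  exact zero_ne_one h

variable {P : ValuationSubring Qb}

theorem residue_eq_iff {a b : Qb} (ha : a ∈ P) (hb : b ∈ P) :
    residue P ⟨a, ha⟩ = residue P ⟨b, hb⟩ ↔ P.valuation (a - b) < 1 := by
  rw [← sub_eq_zero, ← map_sub, residue_eq_zero_iff, P.valuation_lt_one_iff]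
  rfl

theorem near1_apply_div_of_unit {τ : GQ} (hτ : τ ∈ P.inertiaSubgroupIn ℚ) {u : Qb}
    (hu : P.valuation u = 1) : Near1 P.valuation (τ u / u) := by
  have hu0 : u ≠ 0 := by
    rintro rfl
    simp at hu
  rw [near1_div_iff hu0, hu]
  exact Fermat.Agent.S05.inertia_spec P τ hτ u hu.le

theorem near1_apply_of_near1 {τ : GQ} (hτ : τ ∈ P.inertiaSubgroupIn ℚ) {a : Qb}
    (ha : Near1 P.valuation a) : Near1 P.valuation (τ a) := by
  have h1 := Fermat.Agent.S05.inertia_spec P τ hτ a ha.val_eq_one.le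
  have h2 : τ a - 1 = (τ a - a) + (a - 1) := by ring
  show P.valuation (τ a - 1) < 1
  rw [h2]
  exact Valuation.map_add_lt _ h1 ha

theorem near1_pow_apply_div {τ : GQ} (hτ : τ ∈ P.inertiaSubgroupIn ℚ) {π : Qb} (hπ : π ≠ 0)
    (h : Near1 P.valuation (τ π / π)) (n : ℕ) : Near1 P.valuation ((τ ^ n) π / π) := by
  induction n with
  | zero =>
    have : ((τ ^ 0) π) / π = 1 := by
      rw [pow_zero, AlgEquiv.one_apply, div_self hπ]
    rw [this]
    exact near1_one _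
  | succ n ih =>
    have hτπ : τ π ≠ 0 := (map_ne_zero τ).mpr hπ
    have h3 : (τ ^ (n + 1)) π / π = τ ((τ ^ n) π / π) * (τ π / π) := by
      rw [pow_succ', AlgEquiv.mul_apply, map_div₀]
      field_simp
    rw [h3]
    exact (near1_apply_of_near1 hτ ih).mul h

/-- If `τ` is in inertia and acts trivially mod `𝔪` on a `d!`-th root `π` of `q`, then it is
"wild" on every element of degree at most `d`. -/
theorem near1_apply_div_of_root {q : ℕ} (hq : q.Prime) (hP : P.LiesOverPrime q) {τ : GQ}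
    (hτ : τ ∈ P.inertiaSubgroupIn ℚ) {d : ℕ} {π : Qb} (hπ : π ^ d.factorial = (q : Qb))
    (h : Near1 P.valuation (τ π / π)) {z : Qb} (hz : z ≠ 0)
    (hdeg : (minpoly ℚ z).natDegree ≤ d) : Near1 P.valuation (τ z / z) := by
  have hvq : P.valuation (q : Qb) < 1 := P.mem_nonunits_iff.mp hP
  have hint : IsIntegral ℚ z :=
    isAlgebraic_iff_isIntegral.mp ((AlgebraicClosure.isAlgebraic ℚ).isAlgebraic z)
  obtain ⟨k, hk⟩ := exists_val_pow_factorial_eq P.valuation hq hvq d z hz hint hdeg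
  have hπ0 : π ≠ 0 := by
    rintro rfl
    rw [zero_pow (Nat.factorial_ne_zero d)] at hπ
    exact hq.ne_zero (by exact_mod_cast hπ.symm)
  have hvπ : P.valuation π ^ d.factorial = P.valuation (q : Qb) := by rw [← map_pow, hπ]
  have hvz : P.valuation z = P.valuation (π ^ k) := by
    apply pow_inj_of_ne_zero (Nat.factorial_ne_zero d)
    rw [hk, ← hvπ, map_zpow₀, ← zpow_natCast, ← zpow_natCast, ← zpow_mul, ← zpow_mul, mul_comm]
  have hπk : π ^ k ≠ 0 := zpow_ne_zero k hπ0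
  set u := z / π ^ k with hu
  have hvu : P.valuation u = 1 := by
    rw [hu, map_div₀, hvz, div_self]
    exact (Valuation.ne_zero_iff _).mpr hπk
  have hu0 : u ≠ 0 := div_ne_zero hz hπk
  have hτπ : τ π ≠ 0 := (map_ne_zero τ).mpr hπ0
  have hτu : τ u ≠ 0 := (map_ne_zero τ).mpr hu0
  have hz' : z = u * π ^ k := by
    rw [hu]
    field_simp
  have key : τ z / z = (τ u / u) * (τ π / π) ^ k := by
    rw [div_zpow]
    conv_lhs => rw [hz', map_mul, map_zpow₀]
    field_simp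
  rw [key]
  exact (near1_apply_div_of_unit hτ hvu).mul (h.zpow k)

/-- A "wild" automorphism of a subfield whose order there is prime to the residue characteristic
is trivial on it. -/
theorem eq_of_near1_of_pow {σ : GQ} (L : IntermediateField ℚ Qb)
    (hσL : ∀ x ∈ L, σ x ∈ L) (hwild : ∀ z ∈ L, z ≠ 0 → Near1 P.valuation (σ z / z))
    (m : ℕ) (hm : P.valuation (m : Qb) = 1) (hpow : ∀ x ∈ L, (σ ^ m) x = x) :
    ∀ x ∈ L, σ x = x := by
  intro x hx
  by_contra hne
  set w := σ x - x with hw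
  have hw0 : w ≠ 0 := sub_ne_zero.mpr hne
  have hwL : w ∈ L := L.sub_mem (hσL x hx) hx
  have hvw : P.valuation w ≠ 0 := (Valuation.ne_zero_iff _).mpr hw0
  have claim : ∀ i : ℕ, (σ ^ i) w ∈ L ∧ P.valuation ((σ ^ i) w - w) < P.valuation w := by
    intro i
    induction i with
    | zero =>
      have h0 : (σ ^ 0) w = w := by rw [pow_zero, AlgEquiv.one_apply]
      rw [h0, sub_self, map_zero]
      exact ⟨hwL, zero_lt_iff.mpr hvw⟩
    | succ i ih =>
      obtain ⟨hL, hlt⟩ := ih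
      set y := (σ ^ i) w with hy
      have hvy : P.valuation y = P.valuation w := by
        have : y = w + (y - w) := by ring
        rw [this]
        exact Valuation.map_add_eq_of_lt_left _ hlt
      have hy0 : y ≠ 0 := by
        rw [← Valuation.ne_zero_iff P.valuation, hvy]
        exact hvw
      have h1 : (σ ^ (i + 1)) w = σ y := by rw [pow_succ', AlgEquiv.mul_apply]
      refine ⟨by rw [h1]; exact hσL y hL, ?_⟩
      have h2 : (σ ^ (i + 1)) w - w = (σ y - y) + (y - w) := by rw [h1]; ring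
      rw [h2]
      have h3 : P.valuation (σ y - y) < P.valuation w := by
        rw [← hvy]
        exact (near1_div_iff hy0).mp (hwild y hL hy0)
      exact Valuation.map_add_lt _ h3 hlt
  have hsum : ∑ i ∈ Finset.range m, (σ ^ i) w = 0 := by
    have h1 : ∀ i, (σ ^ i) w = (σ ^ (i + 1)) x - (σ ^ i) x := by
      intro i
      rw [hw, map_sub, pow_succ, AlgEquiv.mul_apply]
    rw [Finset.sum_congr rfl (fun i _ => h1 i), Finset.sum_range_sub (fun i => (σ ^ i) x) m]
    rw [hpow x hx, pow_zero, AlgEquiv.one_apply, sub_self]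
  have hsum2 : ∑ i ∈ Finset.range m, (σ ^ i) w
      = (m : Qb) * w + ∑ i ∈ Finset.range m, ((σ ^ i) w - w) := by
    rw [Finset.sum_sub_distrib, Finset.sum_const, Finset.card_range, nsmul_eq_mul]
    ring
  have h4 : P.valuation (∑ i ∈ Finset.range m, ((σ ^ i) w - w)) < P.valuation w :=
    Valuation.map_sum_lt _ hvw (fun i _ => (claim i).2)
  have h5 : P.valuation ((m : Qb) * w + ∑ i ∈ Finset.range m, ((σ ^ i) w - w))
      = P.valuation ((m : Qb) * w) :=
    Valuation.map_add_eq_of_lt_left _ (by rw [map_mul, hm, one_mul]; exact h4)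
  rw [← hsum2, hsum, map_zero, map_mul, hm, one_mul] at h5
  exact hvw h5.symm

theorem apply_mem_of_normal (L : IntermediateField ℚ Qb) [Normal ℚ L] (σ : GQ) {x : Qb}
    (hx : x ∈ L) : σ x ∈ L := by
  have h3 := AlgEquiv.restrictNormal_commutes σ L ⟨x, hx⟩
  have h4 : σ x = algebraMap L Qb (σ.restrictNormal L ⟨x, hx⟩) := h3.symm
  rw [h4]
  exact (σ.restrictNormal L ⟨x, hx⟩).2

theorem exists_pow_fix (L : IntermediateField ℚ Qb) [FiniteDimensional ℚ L] [Normal ℚ L] :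
    ∃ N : ℕ, 0 < N ∧ ∀ σ : GQ, ∀ x ∈ L, (σ ^ N) x = x := by
  refine ⟨Nat.card (L ≃ₐ[ℚ] L), Nat.card_pos, fun σ x hx => ?_⟩
  have h1 : (AlgEquiv.restrictNormalHom L σ) ^ Nat.card (L ≃ₐ[ℚ] L) = 1 := pow_card_eq_one'
  have h2 : AlgEquiv.restrictNormalHom L (σ ^ Nat.card (L ≃ₐ[ℚ] L)) = 1 := by rw [map_pow, h1]
  have h3 := AlgEquiv.restrictNormal_commutes (σ ^ Nat.card (L ≃ₐ[ℚ] L)) L ⟨x, hx⟩
  have h4 : (σ ^ Nat.card (L ≃ₐ[ℚ] L)).restrictNormal L = 1 := h2
  rw [h4] at h3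
  exact h3.symm

set_option linter.unreachableTactic false in
set_option linter.unusedTactic false in
theorem natDegree_minpoly_le_of_mem (L : IntermediateField ℚ Qb) [FiniteDimensional ℚ L]
    {z : Qb} (hz : z ∈ L) : (minpoly ℚ z).natDegree ≤ Module.finrank ℚ L := by
  have h1 := minpoly.natDegree_le (A := ℚ) (⟨z, hz⟩ : L)
  have h2 := IntermediateField.minpoly_eq (⟨z, hz⟩ : L)
  rw [← h2]
  convert h1
  all_goals first | rfl | exact Subsingleton.elim _ _

/-- The restriction to a subgroup of a function additive on it, as a homomorphism. -/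
noncomputable def toHom {k : Type*} [AddGroup k] (I : Subgroup GQ) (f : GQ → k)
    (hf : ∀ σ ∈ I, ∀ τ ∈ I, f (σ * τ) = f σ + f τ) : I →* Multiplicative k where
  toFun σ := Multiplicative.ofAdd (f σ.1)
  map_one' := by
    have h := hf 1 I.one_mem 1 I.one_mem
    rw [mul_one] at h
    have h0 : f 1 = 0 := by simpa using h
    show Multiplicative.ofAdd (f 1) = 1
    rw [h0]
    rfl
  map_mul' σ τ := by
    show Multiplicative.ofAdd (f (σ.1 * τ.1)) = Multiplicative.ofAdd (f σ.1) * Multiplicative.ofAdd (f τ.1)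
    rw [hf _ σ.2 _ τ.2]
    rfl

theorem toHom_apply {k : Type*} [AddGroup k] (I : Subgroup GQ) (f : GQ → k)
    (hf : ∀ σ ∈ I, ∀ τ ∈ I, f (σ * τ) = f σ + f τ) (σ : I) :
    Multiplicative.toAdd (toHom I f hf σ) = f σ.1 := rfl

/-- Additive level-`L` functions on inertia vanish on the elements acting trivially mod `𝔪` on a
root of `q` of degree `[L:ℚ]!`. -/
theorem eq_zero_of_near1 {k : Type*} [Field k] {p q : ℕ} (hq : q.Prime) (hpq : Nat.Coprime p q)
    (hk : (p : k) = 0) (hP : P.LiesOverPrime q) (L : IntermediateField ℚ Qb)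
    [FiniteDimensional ℚ L] [Normal ℚ L] {π : Qb}
    (hπ : π ^ (Module.finrank ℚ L).factorial = (q : Qb)) (f : GQ → k)
    (hf : ∀ σ ∈ P.inertiaSubgroupIn ℚ, ∀ τ ∈ P.inertiaSubgroupIn ℚ, f (σ * τ) = f σ + f τ)
    (hfL : ∀ g s : GQ, (∀ x ∈ L, s x = x) → f (g * s) = f g)
    {τ : GQ} (hτ : τ ∈ P.inertiaSubgroupIn ℚ) (h : Near1 P.valuation (τ π / π)) : f τ = 0 := by
  have hvq : P.valuation (q : Qb) < 1 := P.mem_nonunits_iff.mp hP
  obtain ⟨N, hN0, hN⟩ := exists_pow_fix L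
  obtain ⟨a, m', hm', hNeq⟩ := Nat.exists_eq_pow_mul_and_not_dvd hN0.ne' q hq.ne_one
  have hπ0 : π ≠ 0 := by
    rintro rfl
    rw [zero_pow (Nat.factorial_ne_zero _)] at hπ
    exact hq.ne_zero (by exact_mod_cast hπ.symm)
  have hτ1 : τ ^ (q ^ a) ∈ P.inertiaSubgroupIn ℚ := Subgroup.pow_mem _ hτ _
  have h1 : Near1 P.valuation ((τ ^ (q ^ a)) π / π) := near1_pow_apply_div hτ hπ0 h _
  have hwild : ∀ z ∈ L, z ≠ 0 → Near1 P.valuation ((τ ^ (q ^ a)) z / z) := fun z hz hz0 =>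
    near1_apply_div_of_root hq hP hτ1 hπ h1 hz0 (natDegree_minpoly_le_of_mem L hz)
  have hvm : P.valuation (m' : Qb) = 1 := by
    have := Fermat.Agent.Lib.FrobeniusExists.val_intCast_eq_one P.valuation hq hvq
      (n := (m' : ℤ)) (by exact_mod_cast hm')
    simpa using this
  have hfix : ∀ x ∈ L, (τ ^ (q ^ a)) x = x :=
    eq_of_near1_of_pow L (fun x hx => apply_mem_of_normal L _ hx) hwild m' hvm
      (fun x hx => by rw [← pow_mul, ← hNeq]; exact hN τ x hx)
  have hf1 : f (τ ^ (q ^ a)) = 0 := by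
    have h2 := hfL 1 (τ ^ (q ^ a)) hfix
    rw [one_mul] at h2
    rw [h2]
    have h3 := hf 1 (Subgroup.one_mem _) 1 (Subgroup.one_mem _)
    rw [mul_one] at h3
    simpa using h3
  have hpow : f (τ ^ (q ^ a)) = (q ^ a : ℕ) • f τ := by
    have h2 := map_pow (toHom (P.inertiaSubgroupIn ℚ) f hf) ⟨τ, hτ⟩ (q ^ a)
    have h3 := congrArg Multiplicative.toAdd h2
    rw [toAdd_pow] at h3
    exact h3
  rw [hpow, nsmul_eq_mul] at hf1
  have hq0 : ((q ^ a : ℕ) : k) ≠ 0 := by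
    push_cast
    exact pow_ne_zero _ (natCast_ne_zero_of_coprime hpq hk)
  exact (mul_eq_zero.mp hf1).resolve_left hq0

end Galois

/-! ### The tame character -/

section Theta

open IsLocalRing

variable {P : ValuationSubring Qb}

theorem ratio_pow_eq_one {D q : ℕ} {π : Qb} (hπ : π ^ D = (q : Qb)) (hq0 : q ≠ 0) (σ : GQ) :
    (σ π / π) ^ D = 1 := by
  rw [div_pow, ← map_pow, hπ, map_natCast, div_self]
  exact_mod_cast hq0

theorem ratio_mem {D q : ℕ} (hD : D ≠ 0) {π : Qb} (hπ : π ^ D = (q : Qb)) (hq0 : q ≠ 0)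
    (σ : GQ) : σ π / π ∈ P := by
  rw [← P.valuation_le_one_iff]
  have h : P.valuation (σ π / π) ^ D = 1 ^ D := by
    rw [← map_pow, ratio_pow_eq_one hπ hq0, map_one, one_pow]
  exact (pow_inj_of_ne_zero hD h).le

variable (P) in
/-- The tame character of the inertia group attached to a `D`-th root `π` of `q`:
`σ ↦ σ π / π mod 𝔪`. -/
noncomputable def thetaHom {D q : ℕ} (hD : D ≠ 0) {π : Qb} (hπ : π ^ D = (q : Qb))
    (hq0 : q ≠ 0) : ↥(P.inertiaSubgroupIn ℚ) →* (ResidueField P)ˣ where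
  toFun σ := Units.ofPowEqOne (residue P ⟨σ.1 π / π, ratio_mem hD hπ hq0 σ.1⟩) D
    (by
      rw [← map_pow]
      have : (⟨σ.1 π / π, ratio_mem hD hπ hq0 σ.1⟩ : P) ^ D = 1 :=
        Subtype.ext (ratio_pow_eq_one hπ hq0 σ.1)
      rw [this, map_one]) hD
  map_one' := by
    apply Units.ext
    have hπ0 : π ≠ 0 := by
      rintro rfl
      rw [zero_pow hD] at hπ
      exact hq0 (by exact_mod_cast hπ.symm)
    have : (⟨(1 : ↥(P.inertiaSubgroupIn ℚ)).1 π / π, ratio_mem hD hπ hq0 _⟩ : P) = 1 :=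
      Subtype.ext (by
        show (1 : GQ) π / π = 1
        rw [AlgEquiv.one_apply, div_self hπ0])
    show residue P _ = 1
    rw [this, map_one]
  map_mul' σ τ := by
    apply Units.ext
    have hπ0 : π ≠ 0 := by
      rintro rfl
      rw [zero_pow hD] at hπ
      exact hq0 (by exact_mod_cast hπ.symm)
    have hσπ : σ.1 π ≠ 0 := (map_ne_zero σ.1).mpr hπ0
    have hmem : σ.1 (τ.1 π / π) ∈ P := by
      rw [← P.valuation_le_one_iff]
      exact Fermat.Agent.S05.Inertia.map_le_one P σ.1 σ.2 _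
        ((P.valuation_le_one_iff _).mpr (ratio_mem hD hπ hq0 τ.1))
    have h1 : (⟨(σ * τ).1 π / π, ratio_mem hD hπ hq0 _⟩ : P)
        = ⟨σ.1 (τ.1 π / π), hmem⟩ * ⟨σ.1 π / π, ratio_mem hD hπ hq0 σ.1⟩ :=
      Subtype.ext (by
        show (σ.1 * τ.1) π / π = σ.1 (τ.1 π / π) * (σ.1 π / π)
        rw [AlgEquiv.mul_apply, map_div₀]
        field_simp)
    have h2 : residue P ⟨σ.1 (τ.1 π / π), hmem⟩
        = residue P ⟨τ.1 π / π, ratio_mem hD hπ hq0 τ.1⟩ := by
      rw [residue_eq_iff]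
      exact Fermat.Agent.S05.inertia_spec P σ.1 σ.2 _
        ((P.valuation_le_one_iff _).mpr (ratio_mem hD hπ hq0 τ.1))
    show residue P _ = residue P _ * residue P _
    rw [h1, map_mul, h2, mul_comm]

theorem thetaHom_val {D q : ℕ} (hD : D ≠ 0) {π : Qb} (hπ : π ^ D = (q : Qb)) (hq0 : q ≠ 0)
    (σ : ↥(P.inertiaSubgroupIn ℚ)) :
    ((thetaHom P hD hπ hq0 σ : (ResidueField P)ˣ) : ResidueField P)
      = residue P ⟨σ.1 π / π, ratio_mem hD hπ hq0 σ.1⟩ := rfl

theorem thetaHom_eq_one_iff {D q : ℕ} (hD : D ≠ 0) {π : Qb} (hπ : π ^ D = (q : Qb))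
    (hq0 : q ≠ 0) (σ : ↥(P.inertiaSubgroupIn ℚ)) :
    thetaHom P hD hπ hq0 σ = 1 ↔ Near1 P.valuation (σ.1 π / π) := by
  rw [Units.ext_iff, thetaHom_val, Units.val_one]
  have h1 : (1 : ResidueField P) = residue P ⟨1, P.one_mem⟩ := (map_one _).symm
  rw [h1, residue_eq_iff]
  rfl

theorem thetaHom_pow_eq_one {D q : ℕ} (hD : D ≠ 0) {π : Qb} (hπ : π ^ D = (q : Qb))
    (hq0 : q ≠ 0) (σ : ↥(P.inertiaSubgroupIn ℚ)) : thetaHom P hD hπ hq0 σ ^ D = 1 := by
  apply Units.ext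
  rw [Units.val_pow_eq_pow_val, thetaHom_val, Units.val_one, ← map_pow]
  have : (⟨σ.1 π / π, ratio_mem hD hπ hq0 σ.1⟩ : P) ^ D = 1 :=
    Subtype.ext (ratio_pow_eq_one hπ hq0 σ.1)
  rw [this, map_one]

end Theta

end Fermat.Agent.Lib.Tame
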