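import Mathlib
import Fermat.Agent.Lib.Tame.Core

set_option autoImplicit false

namespace Fermat.Agent.Lib.Tame

open Polynomial IsLocalRing

local notation "Qb" => AlgebraicClosure ℚ
local notation "GQ" => (AlgebraicClosure ℚ ≃ₐ[ℚ] AlgebraicClosure ℚ)

attribute [local instance] Fermat.Agent.Lib.FrobeniusExists.isAlgClosure_rat
  Fermat.Agent.Lib.FrobeniusExists.isGalois_rat

section Generator

variable {P : ValuationSubring Qb}

/-- The image of the tame character is cyclic. -/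
theorem exists_theta_generator {D q : ℕ} (hD : D ≠ 0) {π : Qb} (hπ : π ^ D = (q : Qb))
    (hq0 : q ≠ 0) :
    ∃ σ₀ : ↥(P.inertiaSubgroupIn ℚ), ∀ σ : ↥(P.inertiaSubgroupIn ℚ),
      ∃ j : ℤ, thetaHom P hD hπ hq0 σ = thetaHom P hD hπ hq0 σ₀ ^ j := by
  have : NeZero D := ⟨hD⟩
  set θ := thetaHom P hD hπ hq0 with hθ
  have hle : θ.range ≤ rootsOfUnity D (ResidueField P) := by
    rintro _ ⟨σ, rfl⟩
    rw [mem_rootsOfUnity]
    exact thetaHom_pow_eq_one hD hπ hq0 σ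
  have : Finite θ.range :=
    Finite.of_injective (Subgroup.inclusion hle) (Subgroup.inclusion_injective hle)
  obtain ⟨g, hg⟩ := IsCyclic.exists_generator (α := θ.range)
  obtain ⟨σ₀, hσ₀⟩ := g.2
  refine ⟨σ₀, fun σ => ?_⟩
  obtain ⟨j, hj⟩ := Subgroup.mem_zpowers_iff.mp (hg ⟨θ σ, σ, rfl⟩)
  refine ⟨j, ?_⟩
  have h2 := congrArg Subtype.val hj
  rw [Subgroup.coe_zpow] at h2
  rw [hσ₀]
  exact h2.symm

/-- Additive level-`L` functions on inertia factor through the tame character. -/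
theorem eq_zsmul_of_theta {k : Type*} [Field k] {p q : ℕ} (hq : q.Prime) (hpq : Nat.Coprime p q)
    (hk : (p : k) = 0) (hP : P.LiesOverPrime q) (L : IntermediateField ℚ Qb)
    [FiniteDimensional ℚ L] [Normal ℚ L] {π : Qb}
    (hπ : π ^ (Module.finrank ℚ L).factorial = (q : Qb)) (f : GQ → k)
    (hf : ∀ σ ∈ P.inertiaSubgroupIn ℚ, ∀ τ ∈ P.inertiaSubgroupIn ℚ, f (σ * τ) = f σ + f τ)
    (hfL : ∀ g s : GQ, (∀ x ∈ L, s x = x) → f (g * s) = f g)
    (σ σ₀ : ↥(P.inertiaSubgroupIn ℚ)) (j : ℤ)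
    (hj : thetaHom P (Nat.factorial_ne_zero _) hπ hq.ne_zero σ
      = thetaHom P (Nat.factorial_ne_zero _) hπ hq.ne_zero σ₀ ^ j) :
    f σ.1 = j • f σ₀.1 := by
  have h1 : thetaHom P (Nat.factorial_ne_zero _) hπ hq.ne_zero (σ * σ₀ ^ (-j)) = 1 := by
    rw [map_mul, map_zpow, hj, ← zpow_add, add_neg_cancel, zpow_zero]
  have h2 := (thetaHom_eq_one_iff _ hπ _ _).mp h1
  have h3 : f (σ * σ₀ ^ (-j)).1 = 0 :=
    eq_zero_of_near1 hq hpq hk hP L hπ f hf hfL (σ * σ₀ ^ (-j)).2 h2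
  have h4 : toHom (P.inertiaSubgroupIn ℚ) f hf (σ * σ₀ ^ (-j)) = 1 := by
    show Multiplicative.ofAdd (f (σ * σ₀ ^ (-j)).1) = 1
    rw [h3]
    rfl
  rw [map_mul, map_zpow, zpow_neg] at h4
  have h5 : toHom (P.inertiaSubgroupIn ℚ) f hf σ = toHom (P.inertiaSubgroupIn ℚ) f hf σ₀ ^ j :=
    mul_inv_eq_one.mp h4
  have h6 := congrArg Multiplicative.toAdd h5
  rw [toAdd_zpow] at h6
  exact h6

end Generator


/-! ### Conjugation by the decomposition group -/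

section Conj

variable {P : ValuationSubring Qb}

theorem conj_mem_inertia {φ τ : GQ} (hφ : φ ∈ P.decompositionSubgroup ℚ)
    (hτ : τ ∈ P.inertiaSubgroupIn ℚ) : φ * τ * φ⁻¹ ∈ P.inertiaSubgroupIn ℚ := by
  obtain ⟨τ', hτ', rfl⟩ := hτ
  have hn : (P.inertiaSubgroup ℚ).Normal := by
    unfold ValuationSubring.inertiaSubgroup
    infer_instance
  have h : (P.decompositionSubgroup ℚ).subtype
      ((⟨φ, hφ⟩ : P.decompositionSubgroup ℚ) * τ' * (⟨φ, hφ⟩ : P.decompositionSubgroup ℚ)⁻¹)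
      = φ * (P.decompositionSubgroup ℚ).subtype τ' * φ⁻¹ := by
    rw [map_mul, map_mul, map_inv]
    rfl
  rw [← h]
  exact Subgroup.mem_map_of_mem _ (hn.conj_mem τ' hτ' _)

/-- The ring endomorphism of the residue field induced by an element of the decomposition
group. -/
noncomputable def resHom (φ : GQ) (hφ : φ ∈ P.decompositionSubgroup ℚ) :
    ResidueField P →+* ResidueField P :=
  MulSemiringAction.toRingHom (P.decompositionSubgroup ℚ) (ResidueField P) ⟨φ, hφ⟩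

theorem apply_mem_of_mem_decomposition {φ : GQ} (hφ : φ ∈ P.decompositionSubgroup ℚ) {x : Qb}
    (hx : x ∈ P) : φ x ∈ P :=
  ((⟨φ, hφ⟩ : P.decompositionSubgroup ℚ) • (⟨x, hx⟩ : P) : P).2

theorem resHom_residue {φ : GQ} (hφ : φ ∈ P.decompositionSubgroup ℚ) {x : Qb} (hx : x ∈ P) :
    resHom φ hφ (residue P ⟨x, hx⟩)
      = residue P ⟨φ x, apply_mem_of_mem_decomposition hφ hx⟩ := rfl

theorem val_apply_lt_one {φ : GQ} (hφ : φ ∈ P.decompositionSubgroup ℚ) {z : Qb}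
    (hz : P.valuation z < 1) : P.valuation (φ z) < 1 := by
  have hzP : z ∈ P := (P.valuation_le_one_iff z).mp hz.le
  have h1 : residue P ⟨z, hzP⟩ = 0 := by
    rw [residue_eq_zero_iff, P.valuation_lt_one_iff]
    exact hz
  have h2 := resHom_residue hφ hzP
  rw [h1, map_zero] at h2
  have h3 := h2.symm
  rw [residue_eq_zero_iff, P.valuation_lt_one_iff] at h3
  exact h3

theorem charP_residueField {q : ℕ} (hq : q.Prime) (hP : P.LiesOverPrime q) :
    CharP (ResidueField P) q := by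
  have hv : P.valuation (q : Qb) < 1 := P.mem_nonunits_iff.mp hP
  have h0 : ((q : ℕ) : ResidueField P) = 0 := by
    have h1 : (q : Qb) ∈ P := (P.valuation_le_one_iff _).mp hv.le
    have h2 : residue P ⟨(q : Qb), h1⟩ = 0 := by
      rw [residue_eq_zero_iff, P.valuation_lt_one_iff]
      exact hv
    have h3 : (⟨(q : Qb), h1⟩ : P) = ((q : ℕ) : P) := Subtype.ext (by simp)
    rw [h3, map_natCast] at h2
    exact h2
  obtain ⟨c, hc⟩ := CharP.exists (ResidueField P)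
  have hdvd : c ∣ q := (CharP.cast_eq_zero_iff (ResidueField P) c q).mp h0
  rcases (Nat.dvd_prime hq).mp hdvd with h | h
  · subst h
    have h1 := CharP.cast_eq_zero (ResidueField P) 1
    rw [Nat.cast_one] at h1
    exact (one_ne_zero h1).elim
  · rw [← h]
    exact hc

/-- In characteristic `q`, every ring endomorphism fixes the solutions of `x ^ q = x`. -/
theorem ringHom_apply_eq_of_pow_eq {κ : Type*} [Field κ] (q : ℕ) [Fact q.Prime] [CharP κ q]
    (s : κ →+* κ) {x : κ} (hx : x ^ q = x) : s x = x := by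
  have h1 : x ∈ (⊥ : Subfield κ) := (Subfield.mem_bot_iff_pow_eq_self κ q).mpr hx
  obtain ⟨n, rfl⟩ := (mem_bot_iff_intCast q κ).mp h1
  exact map_intCast s n

theorem thetaHom_conj {D q : ℕ} (hD : D ≠ 0) {π : Qb} (hπ : π ^ D = (q : Qb)) (hq0 : q ≠ 0)
    {φ : GQ} (hφ : φ ∈ P.decompositionSubgroup ℚ) (τ : ↥(P.inertiaSubgroupIn ℚ)) :
    thetaHom P hD hπ hq0 ⟨φ * τ.1 * φ⁻¹, conj_mem_inertia hφ τ.2⟩
      = Units.map (resHom φ hφ : ResidueField P →* ResidueField P) (thetaHom P hD hπ hq0 τ) := by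
  apply Units.ext
  rw [Units.coe_map, thetaHom_val, thetaHom_val]
  show _ = resHom φ hφ (residue P _)
  rw [resHom_residue, residue_eq_iff]
  have hπ0 : π ≠ 0 := by
    rintro rfl
    rw [zero_pow hD] at hπ
    exact hq0 (by exact_mod_cast hπ.symm)
  set π' := φ⁻¹ π with hπ'
  have hφπ' : φ π' = π := Fermat.Agent.Lib.InertiaLift.apply_inv_apply φ π
  have hπ'0 : π' ≠ 0 := by
    intro h
    rw [h, map_zero] at hφπ'
    exact hπ0 hφπ'.symm
  have h1 : (φ * τ.1 * φ⁻¹) π / π = φ (τ.1 π' / π') := by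
    rw [map_div₀, hφπ']
    rfl
  rw [h1, ← map_sub]
  apply val_apply_lt_one hφ
  -- compare the two roots `π` and `π'` of `q`
  set ζ := π' / π with hζ
  have hζD : ζ ^ D = 1 := by
    rw [hζ, div_pow, hπ', ← map_pow, hπ, map_natCast, div_self]
    exact_mod_cast hq0
  have hvζ : P.valuation ζ = 1 := by
    have h : P.valuation ζ ^ D = 1 ^ D := by rw [← map_pow, hζD, map_one, one_pow]
    exact pow_inj_of_ne_zero hD h
  have hζ0 : ζ ≠ 0 := by
    rintro h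
    rw [h, map_zero] at hvζ
    exact zero_ne_one hvζ
  have hτπ : τ.1 π ≠ 0 := (map_ne_zero τ.1).mpr hπ0
  have hτζ : τ.1 ζ ≠ 0 := (map_ne_zero τ.1).mpr hζ0
  have h2 : τ.1 π' / π' - τ.1 π / π = (τ.1 ζ / ζ - 1) * (τ.1 π / π) := by
    have e : π' = ζ * π := by
      rw [hζ]
      field_simp
    rw [e, map_mul]
    field_simp
  rw [h2, map_mul]
  have h3 : P.valuation (τ.1 ζ / ζ - 1) < 1 := near1_apply_div_of_unit τ.2 hvζ
  have h4 : P.valuation (τ.1 π / π) ≤ 1 := (P.valuation_le_one_iff _).mpr (ratio_mem hD hπ hq0 τ.1)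
  exact mul_lt_one_of_lt_of_le h3 h4

end Conj

/-- **Tame inertia is procyclic (mod `p` form).** Two additive finite-level functions on the
inertia group at `q ≠ p` with values in a field of characteristic `p` are proportional. -/
theorem tame_proportional_core {k : Type} [Field k] (p q : ℕ) [Fact p.Prime] (hq : q.Prime)
    (hqp : q ≠ p) (hk : (p : k) = 0) (P : ValuationSubring (AlgebraicClosure ℚ))
    (hP : P.LiesOverPrime q) (f g : GQ → k)
    (hf : ∀ σ ∈ P.inertiaSubgroupIn ℚ, ∀ τ ∈ P.inertiaSubgroupIn ℚ, f (σ * τ) = f σ + f τ)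
    (hfc : ∃ F : IntermediateField ℚ (AlgebraicClosure ℚ), FiniteDimensional ℚ F ∧
      ∀ g s : GQ, (∀ x ∈ F, s x = x) → f (g * s) = f g)
    (hg : ∀ σ ∈ P.inertiaSubgroupIn ℚ, ∀ τ ∈ P.inertiaSubgroupIn ℚ, g (σ * τ) = g σ + g τ)
    (hgc : ∃ F : IntermediateField ℚ (AlgebraicClosure ℚ), FiniteDimensional ℚ F ∧
      ∀ g' s : GQ, (∀ x ∈ F, s x = x) → g (g' * s) = g g')
    (hg0 : ∃ σ ∈ P.inertiaSubgroupIn ℚ, g σ ≠ 0) :
    ∃ x : k, ∀ σ ∈ P.inertiaSubgroupIn ℚ, f σ = x * g σ := by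
  obtain ⟨Ff, hFf, hfF⟩ := hfc
  obtain ⟨Fg, hFg, hgF⟩ := hgc
  have hpq : Nat.Coprime p q := (Nat.coprime_primes Fact.out hq).mpr (Ne.symm hqp)
  let L : IntermediateField ℚ Qb := IntermediateField.normalClosure ℚ ↥(Ff ⊔ Fg) Qb
  have hle : Ff ⊔ Fg ≤ L := IntermediateField.le_normalClosure _
  have : Normal ℚ L := normalClosure.normal ℚ ↥(Ff ⊔ Fg) Qb
  have : FiniteDimensional ℚ L := normalClosure.is_finiteDimensional ℚ ↥(Ff ⊔ Fg) Qb
  have hfL : ∀ g s : GQ, (∀ x ∈ L, s x = x) → f (g * s) = f g := fun g s hs =>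
    hfF g s (fun x hx => hs x (hle (le_sup_left (a := Ff) (b := Fg) hx)))
  have hgL : ∀ g' s : GQ, (∀ x ∈ L, s x = x) → g (g' * s) = g g' := fun g' s hs =>
    hgF g' s (fun x hx => hs x (hle (le_sup_right (a := Ff) (b := Fg) hx)))
  obtain ⟨π, hπ⟩ := IsAlgClosed.exists_pow_nat_eq (q : Qb)
    (Nat.factorial_pos (Module.finrank ℚ L))
  obtain ⟨σ₀, hσ₀⟩ := exists_theta_generator (P := P)
    (Nat.factorial_ne_zero (Module.finrank ℚ L)) hπ hq.ne_zero
  have hg1 : g σ₀.1 ≠ 0 := by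
    intro h0
    obtain ⟨τ, hτ, hgτ⟩ := hg0
    obtain ⟨j, hj⟩ := hσ₀ ⟨τ, hτ⟩
    have := eq_zsmul_of_theta hq hpq hk hP L hπ g hg hgL ⟨τ, hτ⟩ σ₀ j hj
    rw [h0, smul_zero] at this
    exact hgτ this
  refine ⟨f σ₀.1 / g σ₀.1, fun σ hσ => ?_⟩
  obtain ⟨j, hj⟩ := hσ₀ ⟨σ, hσ⟩
  have h1 := eq_zsmul_of_theta hq hpq hk hP L hπ f hf hfL ⟨σ, hσ⟩ σ₀ j hj
  have h2 := eq_zsmul_of_theta hq hpq hk hP L hπ g hg hgL ⟨σ, hσ⟩ σ₀ j hj
  simp only at h1 h2
  rw [h1, h2, zsmul_eq_mul, zsmul_eq_mul]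
  field_simp


/-- **Conjugation by the decomposition group acts trivially on the mod `p` tame quotient when
`q ≡ 1 mod p`.** -/
theorem tame_conj_invariant_core {k : Type} [Field k] (p q : ℕ) [Fact p.Prime] (hq : q.Prime)
    (hqp : p ∣ q - 1) (hk : (p : k) = 0) (P : ValuationSubring (AlgebraicClosure ℚ))
    (hP : P.LiesOverPrime q) (f : GQ → k)
    (hf : ∀ σ ∈ P.inertiaSubgroupIn ℚ, ∀ τ ∈ P.inertiaSubgroupIn ℚ, f (σ * τ) = f σ + f τ)
    (hfc : ∃ F : IntermediateField ℚ (AlgebraicClosure ℚ), FiniteDimensional ℚ F ∧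
      ∀ g s : GQ, (∀ x ∈ F, s x = x) → f (g * s) = f g)
    (φ : GQ) (hφ : φ ∈ P.decompositionSubgroup ℚ) :
    ∀ τ ∈ P.inertiaSubgroupIn ℚ, f (φ * τ * φ⁻¹) = f τ := by
  obtain ⟨F, hF, hfF⟩ := hfc
  have hp : p.Prime := Fact.out
  have hpq : Nat.Coprime p q := by
    rw [Nat.coprime_primes hp hq]
    rintro rfl
    have h1 : p - 1 < p := Nat.sub_lt hp.pos one_pos
    have h2 : 0 < p - 1 := Nat.sub_pos_of_lt hp.one_lt
    exact absurd (Nat.le_of_dvd h2 hqp) (not_le.mpr h1)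
  let L : IntermediateField ℚ Qb := IntermediateField.normalClosure ℚ ↥F Qb
  have hle : F ≤ L := IntermediateField.le_normalClosure _
  have : Normal ℚ L := normalClosure.normal ℚ ↥F Qb
  have : FiniteDimensional ℚ L := normalClosure.is_finiteDimensional ℚ ↥F Qb
  have hfL : ∀ g s : GQ, (∀ x ∈ L, s x = x) → f (g * s) = f g := fun g s hs =>
    hfF g s (fun x hx => hs x (hle hx))
  obtain ⟨π, hπ⟩ := IsAlgClosed.exists_pow_nat_eq (q : Qb)
    (Nat.factorial_pos (Module.finrank ℚ L))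
  have hD := Nat.factorial_ne_zero (Module.finrank ℚ L)
  obtain ⟨σ₀, hσ₀⟩ := exists_theta_generator (P := P) hD hπ hq.ne_zero
  set θ := thetaHom P hD hπ hq.ne_zero with hθ
  set g := θ σ₀ with hg
  let s : ResidueField P →* ResidueField P := (resHom φ hφ : ResidueField P →* ResidueField P)
  have hconj : ∀ τ : ↥(P.inertiaSubgroupIn ℚ),
      θ ⟨φ * τ.1 * φ⁻¹, conj_mem_inertia hφ τ.2⟩ = Units.map s (θ τ) :=
    fun τ => thetaHom_conj hD hπ hq.ne_zero hφ τ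
  obtain ⟨t, ht⟩ := hσ₀ ⟨φ * σ₀.1 * φ⁻¹, conj_mem_inertia hφ σ₀.2⟩
  rw [hconj σ₀] at ht
  intro τ hτ
  obtain ⟨j, hj⟩ := hσ₀ ⟨τ, hτ⟩
  have h1 : θ ⟨φ * τ * φ⁻¹, conj_mem_inertia hφ hτ⟩ = g ^ (t * j) := by
    rw [hconj ⟨τ, hτ⟩, hj, map_zpow, ht, zpow_mul]
  have e1 := eq_zsmul_of_theta hq hpq hk hP L hπ f hf hfL
    ⟨φ * τ * φ⁻¹, conj_mem_inertia hφ hτ⟩ σ₀ (t * j) h1
  have e2 := eq_zsmul_of_theta hq hpq hk hP L hπ f hf hfL ⟨τ, hτ⟩ σ₀ j hj
  simp only at e1 e2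
  rw [e1, e2]
  by_cases hf0 : f σ₀.1 = 0
  · rw [hf0, smul_zero, smul_zero]
  -- the order of `g` is divisible by `p`
  have hgD : g ^ (Module.finrank ℚ L).factorial = 1 := thetaHom_pow_eq_one hD hπ hq.ne_zero σ₀
  have he0 : 0 < orderOf g :=
    orderOf_pos_iff.mpr (isOfFinOrder_iff_pow_eq_one.mpr ⟨_, Nat.factorial_pos _, hgD⟩)
  have he : (orderOf g : k) = 0 := by
    have h2 : θ (σ₀ ^ orderOf g) = g ^ (0 : ℤ) := by
      rw [map_pow, zpow_zero]
      exact pow_orderOf_eq_one g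
    have h3 := eq_zsmul_of_theta hq hpq hk hP L hπ f hf hfL (σ₀ ^ orderOf g) σ₀ 0 h2
    have h4 : θ (σ₀ ^ orderOf g) = g ^ ((orderOf g : ℕ) : ℤ) := by
      rw [map_pow, zpow_natCast]
    have h5 := eq_zsmul_of_theta hq hpq hk hP L hπ f hf hfL (σ₀ ^ orderOf g) σ₀ _ h4
    rw [h3, zero_smul, natCast_zsmul, nsmul_eq_mul] at h5
    exact (mul_eq_zero.mp h5.symm).resolve_right hf0
  have hpe : p ∣ orderOf g := by
    by_contra hnd
    exact natCast_ne_zero_of_coprime ((Nat.Prime.coprime_iff_not_dvd hp).mpr hnd) hk he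
  obtain ⟨m, hm⟩ := hpe
  have hm0 : m ≠ 0 := by
    rintro rfl
    rw [mul_zero] at hm
    exact he0.ne' hm
  -- `ξ := g ^ m` is a `p`-th root of unity, hence in the prime field, hence fixed by `s`
  have hξp : (g ^ m) ^ p = 1 := by
    rw [← pow_mul, mul_comm, ← hm]
    exact pow_orderOf_eq_one g
  obtain ⟨c, hc⟩ := hqp
  have hq1 : q = p * c + 1 := by
    have := hq.one_le
    omega
  have hξq : ((g ^ m : (ResidueField P)ˣ) : ResidueField P) ^ q
      = ((g ^ m : (ResidueField P)ˣ) : ResidueField P) := by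
    rw [← Units.val_pow_eq_pow_val, hq1, pow_succ, pow_mul, hξp, one_pow, one_mul]
  have : Fact q.Prime := ⟨hq⟩
  have : CharP (ResidueField P) q := charP_residueField hq hP
  have hsξ : Units.map s (g ^ m) = g ^ m := by
    apply Units.ext
    rw [Units.coe_map]
    exact ringHom_apply_eq_of_pow_eq q (resHom φ hφ) hξq
  rw [map_pow, ht, ← zpow_natCast, ← zpow_mul, ← zpow_natCast g m, zpow_eq_zpow_iff_modEq] at hsξ
  have hdvd : ((orderOf g : ℕ) : ℤ) ∣ t * m - m := (Int.modEq_iff_dvd.mp hsξ.symm)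
  have hdvd2 : (p : ℤ) ∣ t - 1 := by
    have h6 : ((p * m : ℕ) : ℤ) ∣ (t - 1) * m := by
      rw [← hm]
      convert hdvd using 1
      ring
    push_cast at h6
    exact (mul_dvd_mul_iff_right (by exact_mod_cast hm0)).mp h6
  obtain ⟨c', hc'⟩ := hdvd2
  have ht1 : (t : k) = 1 := by
    have h7 : ((t - 1 : ℤ) : k) = 0 := by
      rw [hc']
      push_cast
      rw [hk, zero_mul]
    push_cast at h7
    exact sub_eq_zero.mp h7
  rw [zsmul_eq_mul, zsmul_eq_mul]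
  push_cast
  rw [ht1, one_mul]

end Fermat.Agent.Lib.Tame
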