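import Mathlib
import Fermat.Agent.Lib.Tame.Char

set_option autoImplicit false

namespace Fermat.Agent.Lib.Tame

open Polynomial IsLocalRing

local notation "Qb" => AlgebraicClosure ℚ
local notation "GQ" => (AlgebraicClosure ℚ ≃ₐ[ℚ] AlgebraicClosure ℚ)

attribute [local instance] Fermat.Agent.Lib.FrobeniusExists.isAlgClosure_rat
  Fermat.Agent.Lib.FrobeniusExists.isGalois_rat

/-- In characteristic `q`, a ring endomorphism maps a solution of `x ^ (q ^ N) = x` to one of its
Frobenius conjugates. -/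
theorem exists_apply_eq_pow_of_pow_eq {κ : Type*} [Field κ] (q : ℕ) [Fact q.Prime] [CharP κ q]
    (s : κ →+* κ) {g : κ} {N : ℕ} (hN : 0 < N) (hg : g ^ (q ^ N) = g) :
    ∃ j < N, s g = g ^ (q ^ j) := by
  classical
  let a : ℕ → κ[X] := fun j => X - C (g ^ (q ^ j))
  let Φ : κ[X] := ∏ j ∈ Finset.range N, a j
  have hmapa : ∀ j, (a j).map (frobenius κ q) = a (j + 1) := by
    intro j
    simp only [a, Polynomial.map_sub, map_X, map_C, frobenius_def, ← pow_mul, ← pow_succ]
  have hshift : ∏ j ∈ Finset.range N, a (j + 1) = ∏ j ∈ Finset.range N, a j := by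
    have h1 := Finset.prod_range_succ' a N
    have h2 := Finset.prod_range_succ a N
    have h3 : a N = a 0 := by simp only [a, hg, pow_zero, pow_one]
    rw [h1, h3] at h2
    have h4 : a 0 ≠ 0 := X_sub_C_ne_zero _
    exact mul_right_cancel₀ h4 h2
  have hΦ : Φ.map (frobenius κ q) = Φ := by
    simp only [Φ]
    rw [Polynomial.map_prod, Finset.prod_congr rfl (fun j _ => hmapa j), hshift]
  have hcoeff : ∀ i, s (Φ.coeff i) = Φ.coeff i := by
    intro i
    apply ringHom_apply_eq_of_pow_eq q s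
    have := congrArg (fun p => p.coeff i) hΦ
    simp only [coeff_map, frobenius_def] at this
    exact this
  have hΦs : Φ.map s = Φ := by
    ext i
    rw [coeff_map, hcoeff]
  have hroot : Φ.eval g = 0 := by
    simp only [Φ]
    rw [eval_prod]
    apply Finset.prod_eq_zero (Finset.mem_range.mpr hN)
    simp [a]
  have hroot2 : Φ.eval (s g) = 0 := by
    have h := Polynomial.eval₂_hom (p := Φ) s g
    rw [hroot, map_zero, ← Polynomial.eval_map, hΦs] at h
    exact h
  simp only [Φ] at hroot2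
  rw [eval_prod, Finset.prod_eq_zero_iff] at hroot2
  obtain ⟨j, hj, hj0⟩ := hroot2
  refine ⟨j, Finset.mem_range.mp hj, ?_⟩
  simp only [a, eval_sub, eval_X, eval_C] at hj0
  exact sub_eq_zero.mp hj0

section Frob

/-- Units of the residue field which are residues of elements of `L`. -/
def resUnits (P : ValuationSubring Qb) (L : IntermediateField ℚ Qb) :
    Subgroup (ResidueField P)ˣ where
  carrier := {x | ∃ b : P, (b : Qb) ∈ L ∧ residue P b = (x : ResidueField P)}
  one_mem' := ⟨1, L.one_mem, map_one _⟩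
  mul_mem' := by
    rintro x y ⟨a, ha, hax⟩ ⟨b, hb, hby⟩
    exact ⟨a * b, L.mul_mem ha hb, by rw [map_mul, hax, hby, Units.val_mul]⟩
  inv_mem' := by
    rintro x ⟨a, ha, hax⟩
    have hva : P.valuation (a : Qb) = 1 := by
      by_contra hne
      have hlt : P.valuation (a : Qb) < 1 :=
        lt_of_le_of_ne ((P.valuation_le_one_iff _).mpr a.2) hne
      have h0 : residue P a = 0 := by
        rw [residue_eq_zero_iff, P.valuation_lt_one_iff]
        exact hlt
      rw [hax] at h0
      exact x.ne_zero h0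
    have ha0 : (a : Qb) ≠ 0 := by
      intro h
      rw [h, map_zero] at hva
      exact zero_ne_one hva
    have haP' : (a : Qb)⁻¹ ∈ P :=
      (P.valuation_le_one_iff _).mp (by rw [map_inv₀, hva, inv_one])
    refine ⟨⟨(a : Qb)⁻¹, haP'⟩, L.inv_mem ha, ?_⟩
    have h1 : (⟨(a : Qb)⁻¹, haP'⟩ : P) * a = 1 := Subtype.ext (inv_mul_cancel₀ ha0)
    have h2 := congrArg (residue P) h1
    rw [map_mul, map_one, hax] at h2
    rw [Units.val_inv_eq_inv_val]
    exact eq_inv_of_mul_eq_one_left h2

theorem fixingSubgroup_normal' (L : IntermediateField ℚ Qb) [Normal ℚ L] :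
    (L.fixingSubgroup).Normal := by
  refine ⟨fun n hn g => ?_⟩
  rw [IntermediateField.mem_fixingSubgroup_iff] at hn ⊢
  intro x hx
  have h1 : g⁻¹ x ∈ L := apply_mem_of_normal L g⁻¹ hx
  show g (n (g⁻¹ x)) = x
  rw [hn _ h1]
  exact g.apply_symm_apply x

/-- **The decomposition group is generated by Frobenius and inertia at every finite level.** -/
theorem decomposition_eq_frobenius_pow_mul_inertia (q : ℕ) (hq : q.Prime)
    (P : ValuationSubring (AlgebraicClosure ℚ)) (hP : P.LiesOverPrime q) (φ : GQ)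
    (hφ : P.IsFrobeniusAt φ q) (F : IntermediateField ℚ (AlgebraicClosure ℚ))
    [FiniteDimensional ℚ F] (σ : GQ) (hσ : σ ∈ P.decompositionSubgroup ℚ) :
    ∃ (j : ℕ) (τ : GQ), τ ∈ P.inertiaSubgroupIn ℚ ∧ ∀ x ∈ F, σ x = (φ ^ j * τ) x := by
  have : Fact q.Prime := ⟨hq⟩
  have : CharP (ResidueField P) q := charP_residueField hq hP
  let L : IntermediateField ℚ Qb := IntermediateField.normalClosure ℚ ↥F Qb
  have hle : F ≤ L := IntermediateField.le_normalClosure _
  have : Normal ℚ L := normalClosure.normal ℚ ↥F Qb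
  have : FiniteDimensional ℚ L := normalClosure.is_finiteDimensional ℚ ↥F Qb
  obtain ⟨N, hN0, hN⟩ := exists_pow_fix L
  let Φ : P.decompositionSubgroup ℚ := ⟨φ, hφ.mem_decompositionSubgroup⟩
  let Sg : P.decompositionSubgroup ℚ := ⟨σ, hσ⟩
  have hfrob : ∀ x : ResidueField P, Φ • x = x ^ q := hφ.smul_residue_eq
  have hfrobpow : ∀ (n : ℕ) (x : ResidueField P), (Φ ^ n) • x = x ^ (q ^ n) := by
    intro n
    induction n with
    | zero => intro x; simp
    | succ n ih => intro x; rw [pow_succ', mul_smul, ih, hfrob, ← pow_mul, ← pow_succ]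
  -- residues of elements of `L` are fixed by the `N`-th power of Frobenius
  have hLfix : ∀ b : P, (b : Qb) ∈ L → residue P b ^ (q ^ N) = residue P b := by
    intro b hb
    rw [← hfrobpow, ← IsLocalRing.ResidueField.residue_smul]
    congr 1
    apply Subtype.ext
    show (φ ^ N) (b : Qb) = b
    exact hN φ b hb
  have hone : 1 < q ^ N := Nat.one_lt_pow hN0.ne' hq.one_lt
  have : NeZero (q ^ N - 1) := ⟨by omega⟩
  have hTle : resUnits P L ≤ rootsOfUnity (q ^ N - 1) (ResidueField P) := by
    rintro x ⟨b, hb, hbx⟩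
    rw [mem_rootsOfUnity]
    have h1 := hLfix b hb
    rw [hbx] at h1
    have h2 : x ^ (q ^ N) = x := Units.ext (by rw [Units.val_pow_eq_pow_val]; exact h1)
    have h3 : x ^ (q ^ N - 1) * x = 1 * x := by
      rw [← pow_succ, Nat.sub_add_cancel hone.le, h2, one_mul]
    exact mul_right_cancel h3
  have : Finite (resUnits P L) :=
    Finite.of_injective (Subgroup.inclusion hTle) (Subgroup.inclusion_injective hTle)
  obtain ⟨g, hg⟩ := IsCyclic.exists_generator (α := resUnits P L)
  obtain ⟨b₀, hb₀L, hb₀⟩ := g.2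
  let sSg : ResidueField P →+* ResidueField P := MulSemiringAction.toRingHom _ _ Sg
  have hgfix : ((g : (ResidueField P)ˣ) : ResidueField P) ^ (q ^ N)
      = ((g : (ResidueField P)ˣ) : ResidueField P) := by
    rw [← hb₀]
    exact hLfix b₀ hb₀L
  obtain ⟨j, hjN, hj⟩ := exists_apply_eq_pow_of_pow_eq q sSg hN0 hgfix
  let sΦ : ResidueField P →+* ResidueField P := MulSemiringAction.toRingHom _ _ (Φ ^ j)
  have hgen : sSg (g : (ResidueField P)ˣ) = sΦ (g : (ResidueField P)ˣ) := by
    rw [hj]
    exact (hfrobpow j _).symm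
  have hall : ∀ b : P, (b : Qb) ∈ L → sSg (residue P b) = sΦ (residue P b) := by
    intro b hb
    by_cases h0 : residue P b = 0
    · rw [h0, map_zero, map_zero]
    · have hx : Units.mk0 (residue P b) h0 ∈ resUnits P L := ⟨b, hb, rfl⟩
      obtain ⟨i, hi⟩ := Subgroup.mem_zpowers_iff.mp (hg ⟨_, hx⟩)
      have h1 := congrArg (fun y : resUnits P L => ((y : (ResidueField P)ˣ) : ResidueField P)) hi
      simp only [Subgroup.coe_zpow, Units.val_zpow_eq_zpow_val, Units.val_mk0] at h1
      rw [← h1, map_zpow₀, map_zpow₀, hgen]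
  let ρ : P.decompositionSubgroup ℚ := (Φ ^ j)⁻¹ * Sg
  have hρ : ∀ b : P, (b : Qb) ∈ L → residue P (ρ • b) = residue P b := by
    intro b hb
    rw [IsLocalRing.ResidueField.residue_smul, mul_smul]
    have h1 : Sg • residue P b = (Φ ^ j) • residue P b := hall b hb
    rw [h1, inv_smul_smul]
  have hnormal : (L.fixingSubgroup).Normal := fixingSubgroup_normal' L
  have hclosed : IsClosed (L.fixingSubgroup : Set GQ) := L.fixingSubgroup_isClosed
  obtain ⟨n, hn, hnρ⟩ := Fermat.Agent.Lib.InertiaLift.exists_mul_mem_inertiaSubgroupIn hq P hP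
    L.fixingSubgroup hclosed (ρ : GQ) (by
      intro b hbint hbfix
      have hbP : b ∈ P := (P.valuation_le_one_iff b).mp
        (Fermat.Agent.Lib.FrobeniusExists.val_le_one_of_isIntegral P.valuation hbint)
      have hbL : b ∈ L := by
        have h1 : b ∈ IntermediateField.fixedField L.fixingSubgroup := by
          rw [IntermediateField.mem_fixedField_iff]
          exact hbfix
        rwa [InfiniteGalois.fixedField_fixingSubgroup] at h1
      have h2 : residue P ⟨(ρ : GQ) b, (ρ • (⟨b, hbP⟩ : P) : P).2⟩ = residue P ⟨b, hbP⟩ :=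
        hρ ⟨b, hbP⟩ hbL
      rw [residue_eq_iff] at h2
      exact h2)
  refine ⟨j, n * (ρ : GQ), hnρ, fun x hx => ?_⟩
  have hxL : x ∈ L := hle hx
  have h1 : (ρ : GQ) x ∈ L := apply_mem_of_normal L _ hxL
  have h2 : n ((ρ : GQ) x) = (ρ : GQ) x :=
    (IntermediateField.mem_fixingSubgroup_iff L n).mp hn _ h1
  have h3 : φ ^ j * (ρ : GQ) = σ := by
    show φ ^ j * ((φ ^ j)⁻¹ * σ) = σ
    rw [mul_inv_cancel_left]
  show σ x = (φ ^ j) (n ((ρ : GQ) x))
  rw [h2, ← AlgEquiv.mul_apply, h3]

end Frob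

end Fermat.Agent.Lib.Tame
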