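/-
Orthogonality for the characters `ζ ↦ ζ ^ (l ^ i)`, `i < N`, of the group of `(l ^ N - 1)`-th roots
of unity, and the resulting "Teichmüller averaging" over a cyclic group generated by a semilinear
automorphism (the replacement for a Moore determinant in unramified descent):

* `sum_pow_mul_inv_pow` : `∑_{k < n} (ω^(l^i'))^k * ((ω^(l^i))^k)⁻¹ = n` if `i' = i`, else `0`
  (`n = l^N - 1`, `ω` a primitive `n`-th root of unity, `i, i' < N`);
* `teich`, `teich_fixed`, `sum_inv_smul_teich` : for a `φ`-semilinear additive map `Φ` with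
  `Φ^[N] f = f` and `φ ω = ω ^ l`, the elements `T_k = ∑_{i<N} ω^(k l^i) • Φ^[i] f` are `Φ`-fixed and
  `∑_{k<n} (ω^(k l^i))⁻¹ • T_k = n • Φ^[i] f`.
-/
import Mathlib

set_option autoImplicit false

namespace Fermat.Agent.Lib.Tame

theorem coprime_pow_sub_one_pow {l N : ℕ} (i : ℕ) (hl : 1 ≤ l) (hN : 0 < N) :
    Nat.Coprime (l ^ N - 1) (l ^ i) := by
  have h1 : Nat.Coprime (l ^ N - 1) (l ^ N) :=
    (Nat.coprime_self_sub_left (Nat.one_le_pow N l hl)).mpr (Nat.coprime_one_left _)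
  have h2 : Nat.Coprime (l ^ N - 1) l :=
    Nat.Coprime.coprime_dvd_right (dvd_pow_self l hN.ne') h1
  exact h2.pow_right i

theorem pow_pow_ne_of_lt {K : Type*} [Field K] {l N : ℕ} (hl : 2 ≤ l) {ω : K}
    (hω : IsPrimitiveRoot ω (l ^ N - 1)) {i i' : ℕ} (hi' : i' < N) (hlt : i < i') :
    ω ^ (l ^ i') ≠ ω ^ (l ^ i) := by
  intro h
  have hN : 0 < N := lt_of_le_of_lt (Nat.zero_le _) hi'
  have hn1 : 1 < l ^ N := Nat.one_lt_pow hN.ne' hl
  have hn0 : l ^ N - 1 ≠ 0 := by omega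
  have hω0 : ω ≠ 0 := hω.ne_zero hn0
  have hle : l ^ i ≤ l ^ i' := Nat.pow_le_pow_right (by omega) hlt.le
  have h1 : ω ^ (l ^ i' - l ^ i) = 1 := by
    have h2 : ω ^ (l ^ i') = ω ^ (l ^ i' - l ^ i) * ω ^ (l ^ i) := by
      rw [← pow_add, Nat.sub_add_cancel hle]
    rw [h2] at h
    exact mul_right_cancel₀ (pow_ne_zero _ hω0) (h.trans (one_mul _).symm)
  have h3 : l ^ N - 1 ∣ l ^ i' - l ^ i := (hω.pow_eq_one_iff_dvd _).mp h1
  have h4 : l ^ i' - l ^ i = l ^ i * (l ^ (i' - i) - 1) := by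
    rw [Nat.mul_sub, mul_one, ← pow_add, Nat.add_sub_cancel' hlt.le]
  rw [h4] at h3
  have h5 : l ^ N - 1 ∣ l ^ (i' - i) - 1 :=
    (coprime_pow_sub_one_pow i (by omega) hN).dvd_of_dvd_mul_left h3
  have h6 : 1 < l ^ (i' - i) := Nat.one_lt_pow (by omega) hl
  have h7 : l ^ (i' - i) < l ^ N := Nat.pow_lt_pow_right hl (by omega)
  have h8 := Nat.le_of_dvd (by omega) h5
  omega

/-- **Orthogonality.** -/
theorem sum_pow_mul_inv_pow {K : Type*} [Field K] {l N : ℕ} (hl : 2 ≤ l) {ω : K}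
    (hω : IsPrimitiveRoot ω (l ^ N - 1)) {i i' : ℕ} (hi : i < N) (hi' : i' < N) :
    ∑ k ∈ Finset.range (l ^ N - 1), (ω ^ (l ^ i')) ^ k * ((ω ^ (l ^ i)) ^ k)⁻¹
      = if i' = i then ((l ^ N - 1 : ℕ) : K) else 0 := by
  have hn1 : 1 < l ^ N := Nat.one_lt_pow (by omega) hl
  have hn0 : l ^ N - 1 ≠ 0 := by omega
  have hω0 : ω ≠ 0 := hω.ne_zero hn0
  set x : K := ω ^ (l ^ i') * (ω ^ (l ^ i))⁻¹ with hx
  have hsum : ∑ k ∈ Finset.range (l ^ N - 1), (ω ^ (l ^ i')) ^ k * ((ω ^ (l ^ i)) ^ k)⁻¹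
      = ∑ k ∈ Finset.range (l ^ N - 1), x ^ k := by
    refine Finset.sum_congr rfl (fun k _ => ?_)
    rw [hx, mul_pow, inv_pow]
  rw [hsum]
  split_ifs with hii
  · have hx1 : x = 1 := by
      rw [hx, hii]
      exact mul_inv_cancel₀ (pow_ne_zero _ hω0)
    rw [hx1]
    simp
  · have hxn : x ^ (l ^ N - 1) = 1 := by
      rw [hx, mul_pow, inv_pow, ← pow_mul, ← pow_mul, mul_comm (l ^ i'), mul_comm (l ^ i),
        pow_mul, pow_mul ω (l ^ N - 1), hω.pow_eq_one, one_pow, one_pow, inv_one, mul_one]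
    have hx1 : x ≠ 1 := by
      intro h
      have h2 : ω ^ (l ^ i') = ω ^ (l ^ i) := by
        have h3 := congrArg (· * ω ^ (l ^ i)) h
        simp only [hx, one_mul] at h3
        rw [inv_mul_cancel_right₀ (pow_ne_zero _ hω0)] at h3
        exact h3
      rcases lt_or_gt_of_ne hii with hlt | hlt
      · exact pow_pow_ne_of_lt hl hω hi hlt h2.symm
      · exact pow_pow_ne_of_lt hl hω hi' hlt h2
    have h4 : (x - 1) * ∑ k ∈ Finset.range (l ^ N - 1), x ^ k = 0 := by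
      rw [mul_geom_sum, hxn, sub_self]
    exact (mul_eq_zero.mp h4).resolve_left (sub_ne_zero.mpr hx1)

section Average

variable {K : Type*} [Field K] {M : Type*} [AddCommGroup M] [Module K M]

/-- The Teichmüller average `T_k = ∑_{i<N} ω^(k l^i) • Φ^[i] f`. -/
def teich (l N : ℕ) (ω : K) (Φ : M → M) (f : M) (k : ℕ) : M :=
  ∑ i ∈ Finset.range N, (ω ^ (l ^ i)) ^ k • Φ^[i] f

theorem teich_fixed {l N : ℕ} (hl : 1 ≤ l) {ω : K} (hωn : ω ^ (l ^ N - 1) = 1) (φ : K →+* K)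
    (hφω : φ ω = ω ^ l) (Φ : M →+ M) (hΦ : ∀ (c : K) (x : M), Φ (c • x) = φ c • Φ x) (f : M)
    (hf : Φ^[N] f = f) (k : ℕ) : Φ (teich l N ω Φ f k) = teich l N ω Φ f k := by
  unfold teich
  rw [map_sum]
  have hterm : ∀ i, Φ ((ω ^ (l ^ i)) ^ k • Φ^[i] f) = (ω ^ (l ^ (i + 1))) ^ k • Φ^[i + 1] f := by
    intro i
    rw [hΦ, map_pow, map_pow, hφω, Function.iterate_succ_apply']
    congr 1
    rw [← pow_mul, ← pow_mul, ← pow_mul]
    congr 1
    ring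
  rw [Finset.sum_congr rfl (fun i _ => hterm i)]
  have h1 := Finset.sum_range_succ' (fun i => (ω ^ (l ^ i)) ^ k • Φ^[i] f) N
  have h2 := Finset.sum_range_succ (fun i => (ω ^ (l ^ i)) ^ k • Φ^[i] f) N
  have hone : 1 ≤ l ^ N := Nat.one_le_pow N l hl
  have h3 : ω ^ (l ^ N) = ω := by
    have : l ^ N = (l ^ N - 1) + 1 := (Nat.sub_add_cancel hone).symm
    rw [this, pow_succ, hωn, one_mul]
  have h4 : (ω ^ (l ^ N)) ^ k • Φ^[N] f = (ω ^ (l ^ 0)) ^ k • Φ^[0] f := by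
    rw [h3, hf, pow_zero, pow_one]
    rfl
  rw [h1, h4] at h2
  exact add_right_cancel h2

/-- **Inversion**: `Φ^[i] f` is recovered from the averages `T_k`. -/
theorem sum_inv_smul_teich {l N : ℕ} (hl : 2 ≤ l) {ω : K} (hω : IsPrimitiveRoot ω (l ^ N - 1))
    (Φ : M → M) (f : M) {i : ℕ} (hi : i < N) :
    ∑ k ∈ Finset.range (l ^ N - 1), ((ω ^ (l ^ i)) ^ k)⁻¹ • teich l N ω Φ f k
      = ((l ^ N - 1 : ℕ) : K) • Φ^[i] f := by
  classical
  unfold teich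
  simp_rw [Finset.smul_sum, smul_smul]
  rw [Finset.sum_comm]
  have h1 : ∀ i' ∈ Finset.range N,
      ∑ k ∈ Finset.range (l ^ N - 1), (((ω ^ (l ^ i)) ^ k)⁻¹ * (ω ^ (l ^ i')) ^ k) • Φ^[i'] f
        = (if i' = i then ((l ^ N - 1 : ℕ) : K) else 0) • Φ^[i'] f := by
    intro i' hi'
    rw [← Finset.sum_smul, ← sum_pow_mul_inv_pow hl hω hi (Finset.mem_range.mp hi')]
    congr 1
    exact Finset.sum_congr rfl (fun k _ => mul_comm _ _)
  rw [Finset.sum_congr rfl h1]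
  simp only [ite_smul, zero_smul]
  rw [Finset.sum_ite_eq' (Finset.range N) i, if_pos (Finset.mem_range.mpr hi)]

end Average

end Fermat.Agent.Lib.Tame
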