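/-
Roots of unity of order prime to `l` ("Teichmüller elements") inside `AlgebraicClosure ℚ` with
respect to a valuation subring `A` over `l`:

* `eq_one_of_near1_of_pow_eq_one` : a root of unity of order prime to the residue characteristic
  which is `≡ 1` modulo the maximal ideal is `1`;
* `inertia_apply_eq_of_pow_eq_one` : the inertia group of `A` fixes them;
* `frobenius_apply_eq_pow_of_pow_eq_one` : a Frobenius element raises them to the `l`-th power;
* `equivariant_decomposition_of_frobenius_inertia` : a function with values in a finite extension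
  on a Galois set of finite level which is equivariant for a Frobenius element and for the inertia
  group is equivariant for the whole decomposition group.
-/
import Mathlib
import Fermat.Agent.Lib.Tame.Frob

set_option autoImplicit false

namespace Fermat.Agent.Lib.Tame

open IsLocalRing

local notation "Qb" => AlgebraicClosure ℚ
local notation "GQ" => (AlgebraicClosure ℚ ≃ₐ[ℚ] AlgebraicClosure ℚ)

/-- A root of unity of order prime to the residue characteristic which is `≡ 1` modulo the
maximal ideal is `1`. -/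
theorem eq_one_of_near1_of_pow_eq_one {K : Type*} [Field K] {Γ₀ : Type*}
    [LinearOrderedCommGroupWithZero Γ₀] (v : Valuation K Γ₀) {ξ : K} {n : ℕ} (hξ : Near1 v ξ)
    (hn : v (n : K) = 1) (hpow : ξ ^ n = 1) : ξ = 1 := by
  by_contra hne
  have h1 : (ξ - 1) * ∑ k ∈ Finset.range n, ξ ^ k = 0 := by rw [mul_geom_sum, hpow, sub_self]
  have h2 : ∑ k ∈ Finset.range n, ξ ^ k = 0 :=
    (mul_eq_zero.mp h1).resolve_left (sub_ne_zero.mpr hne)
  have h3 : ∑ k ∈ Finset.range n, ξ ^ k = (n : K) + ∑ k ∈ Finset.range n, (ξ ^ k - 1) := by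
    rw [Finset.sum_sub_distrib, Finset.sum_const, Finset.card_range, nsmul_eq_mul, mul_one]
    ring
  have h4 : v (∑ k ∈ Finset.range n, (ξ ^ k - 1)) < 1 :=
    Valuation.map_sum_lt v one_ne_zero (fun k _ => hξ.pow k)
  have h5 : v ((n : K) + ∑ k ∈ Finset.range n, (ξ ^ k - 1)) = v (n : K) :=
    Valuation.map_add_eq_of_lt_left v (by rw [hn]; exact h4)
  rw [← h3, h2, map_zero, hn] at h5
  exact zero_ne_one h5

section Galois

variable {A : ValuationSubring Qb}

theorem val_natCast_eq_one {l : ℕ} (hl : l.Prime) (hA : A.LiesOverPrime l) {n : ℕ}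
    (hn : ¬ l ∣ n) : A.valuation (n : Qb) = 1 := by
  have hvl : A.valuation (l : Qb) < 1 := A.mem_nonunits_iff.mp hA
  have := Fermat.Agent.Lib.FrobeniusExists.val_intCast_eq_one A.valuation hl hvl
    (n := (n : ℤ)) (by exact_mod_cast hn)
  simpa using this

theorem val_eq_one_of_pow_eq_one {n : ℕ} (hn0 : n ≠ 0) {ω : Qb} (hω : ω ^ n = 1) :
    A.valuation ω = 1 := by
  have h : A.valuation ω ^ n = 1 ^ n := by rw [← map_pow, hω, map_one, one_pow]
  exact pow_inj_of_ne_zero hn0 h

/-- The inertia group fixes the roots of unity of order prime to the residue characteristic. -/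
theorem inertia_apply_eq_of_pow_eq_one {l : ℕ} (hl : l.Prime) (hA : A.LiesOverPrime l) {n : ℕ}
    (hn : ¬ l ∣ n) {ω : Qb} (hω : ω ^ n = 1) {τ : GQ} (hτ : τ ∈ A.inertiaSubgroupIn ℚ) :
    τ ω = ω := by
  have hn0 : n ≠ 0 := by
    rintro rfl
    exact hn (dvd_zero l)
  have hvω : A.valuation ω = 1 := val_eq_one_of_pow_eq_one hn0 hω
  have hω0 : ω ≠ 0 := by
    rintro rfl
    rw [map_zero] at hvω
    exact zero_ne_one hvω
  have h1 : Near1 A.valuation (τ ω / ω) := near1_apply_div_of_unit hτ hvω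
  have h2 : (τ ω / ω) ^ n = 1 := by
    rw [div_pow, ← map_pow, hω, map_one, div_one]
  have h3 := eq_one_of_near1_of_pow_eq_one A.valuation h1 (val_natCast_eq_one hl hA hn) h2
  exact (div_eq_one_iff_eq hω0).mp h3

/-- A Frobenius element raises the roots of unity of order prime to the residue characteristic
to the `l`-th power. -/
theorem frobenius_apply_eq_pow_of_pow_eq_one {l : ℕ} (hl : l.Prime) (hA : A.LiesOverPrime l)
    {n : ℕ} (hn : ¬ l ∣ n) {ω : Qb} (hω : ω ^ n = 1) {φ : GQ} (hφ : A.IsFrobeniusAt φ l) :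
    φ ω = ω ^ l := by
  have hn0 : n ≠ 0 := by
    rintro rfl
    exact hn (dvd_zero l)
  have hvω : A.valuation ω = 1 := val_eq_one_of_pow_eq_one hn0 hω
  have hω0 : ω ≠ 0 := by
    rintro rfl
    rw [map_zero] at hvω
    exact zero_ne_one hvω
  have hωA : ω ∈ A := (A.valuation_le_one_iff ω).mp hvω.le
  have hφD := hφ.mem_decompositionSubgroup
  have hfr := hφ.smul_residue_eq (residue A ⟨ω, hωA⟩)
  have h0 : residue A ⟨φ ω, apply_mem_of_mem_decomposition hφD hωA⟩
      = residue A ⟨ω ^ l, A.pow_mem hωA l⟩ := by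
    have e1 : residue A ⟨φ ω, apply_mem_of_mem_decomposition hφD hωA⟩
        = (⟨φ, hφD⟩ : A.decompositionSubgroup ℚ) • residue A ⟨ω, hωA⟩ := rfl
    have e2 : (⟨ω ^ l, A.pow_mem hωA l⟩ : A) = ⟨ω, hωA⟩ ^ l := rfl
    rw [e1, hfr, e2, map_pow]
  rw [residue_eq_iff] at h0
  have hvωl : A.valuation (ω ^ l) = 1 := by rw [map_pow, hvω, one_pow]
  have hωl0 : ω ^ l ≠ 0 := pow_ne_zero l hω0
  have h1 : Near1 A.valuation (φ ω / ω ^ l) := by
    rw [near1_div_iff hωl0, hvωl]
    exact h0
  have h2 : (φ ω / ω ^ l) ^ n = 1 := by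
    rw [div_pow, ← map_pow, hω, map_one, ← pow_mul, mul_comm, pow_mul, hω, one_pow, div_one]
  have h3 := eq_one_of_near1_of_pow_eq_one A.valuation h1 (val_natCast_eq_one hl hA hn) h2
  exact (div_eq_one_iff_eq hωl0).mp h3

/-- **From Frobenius and inertia to the decomposition group.** A function `T` on a `GQ`-set of
finite level `F` with values in `F`, equivariant for a Frobenius element and for the inertia
group of `A`, is equivariant for the whole decomposition group of `A`. -/
theorem equivariant_decomposition_of_frobenius_inertia {l : ℕ} (hl : l.Prime)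
    (hA : A.LiesOverPrime l) {φ : GQ} (hφ : A.IsFrobeniusAt φ l) {V : Type*} (act : GQ → V → V)
    (hmul : ∀ σ τ v, act (σ * τ) v = act σ (act τ v))
    (F : IntermediateField ℚ Qb) [FiniteDimensional ℚ F]
    (hlev : ∀ σ : GQ, (∀ x ∈ F, σ x = x) → ∀ v, act σ v = v)
    (T : V → Qb) (hTF : ∀ v, T v ∈ F) (hTφ : ∀ v, T (act φ v) = φ (T v))
    (hTI : ∀ τ ∈ A.inertiaSubgroupIn ℚ, ∀ v, T (act τ v) = τ (T v)) :
    ∀ σ ∈ A.decompositionSubgroup ℚ, ∀ v, T (act σ v) = σ (T v) := by
  intro σ hσ v
  obtain ⟨j, τ, hτ, hστ⟩ := decomposition_eq_frobenius_pow_mul_inertia l hl A hA φ hφ F σ hσ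
  have hpow : ∀ (i : ℕ) (w : V), T (act (φ ^ i) w) = (φ ^ i) (T w) := by
    intro i
    induction i with
    | zero =>
      intro w
      have h1 : act 1 w = w := hlev 1 (fun x _ => rfl) w
      rw [pow_zero, h1]
      rfl
    | succ i ih =>
      intro w
      rw [pow_succ', hmul, hTφ, ih]
      rfl
  set m : GQ := (φ ^ j * τ)⁻¹ * σ with hm
  have hmfix : ∀ x ∈ F, m x = x := by
    intro x hx
    have h1 : m x = (φ ^ j * τ)⁻¹ (σ x) := rfl
    rw [h1, hστ x hx]
    exact Fermat.Agent.Lib.InertiaLift.inv_apply_apply (φ ^ j * τ) x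
  have hσ' : σ = φ ^ j * τ * m := by
    rw [hm, mul_inv_cancel_left]
  have h2 : act σ v = act (φ ^ j) (act τ v) := by
    conv_lhs => rw [hσ']
    rw [hmul, hlev m hmfix v, hmul]
  rw [h2, hpow, hTI τ hτ, hστ (T v) (hTF v)]
  rfl

end Galois

end Fermat.Agent.Lib.Tame
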